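import Mathlib
import Fermat.Prelude.Def_ModularCurve_X0
import Fermat.Prelude.Def_ModularCurve_JqCoeff
import Fermat.Prelude.Def_ModularCurve_LaurentCoeff

/-!
S28 (Igusa): shared definitions.

* `qScale c`  : the substitution `q ↦ c·q` on Laurent series (`c` a unit).
* `vq k`      : the substitution `q ↦ q^k` (total in `k`; equals the Prelude `qExpand R k` for `k ≠ 0`).
* `qSub c k`   : the substitution `q ↦ c·q^k`, `qSub c k = vq k ∘ qScale c`.
* `jS R c k`  : the formal series `j(c·q^k) = qSub c k (jqModC R)`.
* `IsModPoly p Φ` : `Φ ∈ ℤ[Y][X]` is a modular polynomial of prime level `p` (factorisation form).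
* `deltaPS`   : `Δ(q) = q ∏ (1 - q^n)^24` as an integral power series.
-/

set_option autoImplicit false

noncomputable section

namespace Fermat.Agent.S28

open ModularCurve Polynomial

section Scale

variable {R : Type*} [CommRing R]

/-- The coefficient function of `x(c·q)`. -/
def qScaleFun (c : Rˣ) (x : LaurentSeries R) : LaurentSeries R :=
  ⟨fun n => ((c ^ n : Rˣ) : R) * x.coeff n, x.isPWO_support.mono (fun n hn => by
    simp only [Function.mem_support, ne_eq] at hn
    simp only [HahnSeries.mem_support, ne_eq]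
    intro h
    exact hn (by rw [h, mul_zero]))⟩

@[simp]
theorem qScaleFun_coeff (c : Rˣ) (x : LaurentSeries R) (n : ℤ) :
    (qScaleFun c x).coeff n = ((c ^ n : Rˣ) : R) * x.coeff n := rfl

theorem qScaleFun_support (c : Rˣ) (x : LaurentSeries R) :
    (qScaleFun c x).support = x.support := by
  ext n
  simp only [HahnSeries.mem_support, qScaleFun_coeff, ne_eq]
  exact (Units.mul_right_eq_zero (c ^ n)).not

/-- The substitution `q ↦ c·q` on Laurent series, as a ring homomorphism. -/
def qScale (c : Rˣ) : LaurentSeries R →+* LaurentSeries R where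
  toFun := qScaleFun c
  map_zero' := by ext n; simp
  map_one' := by
    ext n
    simp only [qScaleFun_coeff, HahnSeries.coeff_one]
    split_ifs with h
    · subst h; simp
    · simp
  map_add' x y := by ext n; simp [mul_add]
  map_mul' x y := by
    ext n
    have hanti : Finset.antidiagonal (qScaleFun c x).isPWO_support (qScaleFun c y).isPWO_support n
        = Finset.antidiagonal x.isPWO_support y.isPWO_support n := by
      ext ij
      simp only [Finset.mem_antidiagonal, qScaleFun_support]
    rw [qScaleFun_coeff, HahnSeries.coeff_mul, HahnSeries.coeff_mul, hanti, Finset.mul_sum]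
    refine Finset.sum_congr rfl fun ij hij => ?_
    have h : ij.1 + ij.2 = n := (Finset.mem_antidiagonal.mp hij).2.2
    rw [qScaleFun_coeff, qScaleFun_coeff, ← h, zpow_add, Units.val_mul]
    ring

@[simp]
theorem qScale_coeff (c : Rˣ) (x : LaurentSeries R) (n : ℤ) :
    (qScale c x).coeff n = ((c ^ n : Rˣ) : R) * x.coeff n := rfl

/-- The substitution `q ↦ q^k`, total in `k` (the identity for `k = 0`, which is never used). -/
def vq (k : ℕ) : LaurentSeries R →+* LaurentSeries R :=
  if h : k = 0 then RingHom.id _ else @qExpand R _ k ⟨h⟩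

theorem vq_eq_qExpand (k : ℕ) [NeZero k] : (vq k : LaurentSeries R →+* LaurentSeries R) = qExpand R k := by
  unfold vq
  rw [dif_neg (NeZero.ne k)]

/-- The substitution `q ↦ c·q^k` on Laurent series: `qSub c k x = x(c·q^k)`. -/
def qSub (c : Rˣ) (k : ℕ) : LaurentSeries R →+* LaurentSeries R := (vq k).comp (qScale c)

theorem qSub_apply (c : Rˣ) (k : ℕ) (x : LaurentSeries R) : qSub c k x = vq k (qScale c x) := rfl

variable (R) in
/-- The formal Laurent series `j(c·q^k)` over `R` (so `(jS R c k).coeff (k * m) = c^m * j_m`). -/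
def jS (c : Rˣ) (k : ℕ) : LaurentSeries R := qSub c k (jqModC R)

end Scale

section ModPoly

/-- Specialise the coefficient variable: `Φ(X, Y) ↦ Φ(X, y)`. -/
def evalY {A : Type*} [CommRing A] (y : A) : Polynomial (Polynomial ℤ) →+* Polynomial A :=
  Polynomial.mapRingHom (Polynomial.eval₂RingHom (Int.castRingHom A) y)

/-- The factorisation property of a modular polynomial of level `p` over a ring `A` containing a
`p`-th root of unity `ζ`:
`Φ(X, j(q^p)) = (X - j(q^{p²})) · ∏_{b < p} (X - j(ζ^b q))` in `A((q))[X]`. -/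
def ModPolyFact (p : ℕ) (Φ : Polynomial (Polynomial ℤ)) (A : Type*) [CommRing A] (ζ : Aˣ) : Prop :=
  evalY (jS A 1 p) Φ =
    (X - C (jS A 1 (p * p))) * ∏ b ∈ Finset.range p, (X - C (jS A (ζ ^ b) 1))

/-- `Φ ∈ ℤ[Y][X]` is a modular polynomial of level `p`. -/
structure IsModPoly (p : ℕ) (Φ : Polynomial (Polynomial ℤ)) : Prop where
  monic : Φ.Monic
  natDegree_eq : Φ.natDegree = p + 1
  fact : ∀ (A : Type) [CommRing A] [IsDomain A] (ζ : Aˣ), IsPrimitiveRoot ζ p → ModPolyFact p Φ A ζ

/-- Modular polynomials exist for every prime level. This is the ONLY form in which package M1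
enters the other packages (as a hypothesis `hmod : HasModPolys`). -/
def HasModPolys : Prop := ∀ p : ℕ, p.Prime → ∃ Φ : Polynomial (Polynomial ℤ), IsModPoly p Φ

end ModPoly

section PowerSeriesSide

/-- `Δ(q) = q · ∏ (1 - q^n)^24` as a power series with integer coefficients. -/
def deltaPS : PowerSeries ℤ := PowerSeries.X * dedekindEtaUnit

/-- `f(q) ↦ f(q^d)` on integral power series (`d ≠ 0`). -/
abbrev vPS (d : ℕ) [NeZero d] (f : PowerSeries ℤ) : PowerSeries ℤ :=
  PowerSeries.expand d (NeZero.ne d) f

end PowerSeriesSide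

end Fermat.Agent.S28
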