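/-
S28 package F0 (helper91): formal toolkit for the substitutions `q ↦ c·q^k` on Laurent series and
the formal consequences of the factorisation of a modular polynomial.
Statements are exactly those of the F0 section of the S28 skeleton.
-/
import Fermat.Agent.S28.Defs
import Fermat.Prelude.Thm_ModularCurve_coeffMap_qExpand
import Fermat.Prelude.Thm_ModularCurve_coeff_jqModC_neg_one
import Fermat.Prelude.Thm_ModularCurve_coeff_jqModC_pow_of_lt

set_option autoImplicit false

noncomputable section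

namespace Fermat.Agent.S28

open ModularCurve Polynomial

section F0
variable {R : Type*} [CommRing R]

theorem qScale_one (x : LaurentSeries R) : qScale (1 : Rˣ) x = x := by
  ext n
  simp [qScale_coeff]

theorem qScale_qScale (c d : Rˣ) (x : LaurentSeries R) :
    qScale c (qScale d x) = qScale (c * d) x := by
  ext n
  simp only [qScale_coeff, mul_zpow, Units.val_mul]
  ring

theorem qScale_injective (c : Rˣ) :
    Function.Injective (qScale c : LaurentSeries R → LaurentSeries R) := by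
  intro x y h
  have := congrArg (qScale c⁻¹) h
  simpa [qScale_qScale, qScale_one] using this

theorem vq_one (x : LaurentSeries R) : vq 1 x = x := by
  rw [vq_eq_qExpand 1, qExpand_one_apply]

theorem vq_vq (a b : ℕ) (ha : a ≠ 0) (hb : b ≠ 0) (x : LaurentSeries R) :
    vq a (vq b x) = vq (a * b) x := by
  have : NeZero a := ⟨ha⟩
  have : NeZero b := ⟨hb⟩
  rw [vq_eq_qExpand a, vq_eq_qExpand b, vq_eq_qExpand (a * b), qExpand_qExpand]

theorem vq_injective (k : ℕ) (hk : k ≠ 0) :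
    Function.Injective (vq k : LaurentSeries R → LaurentSeries R) := by
  have : NeZero k := ⟨hk⟩
  rw [vq_eq_qExpand k]
  exact qExpand_injective k

theorem vq_coeff_mul (k : ℕ) (hk : k ≠ 0) (x : LaurentSeries R) (n : ℤ) :
    (vq k x).coeff (k * n) = x.coeff n := by
  have : NeZero k := ⟨hk⟩
  rw [vq_eq_qExpand k, qExpand_coeff_mul]

theorem vq_coeff_of_not_dvd (k : ℕ) (hk : k ≠ 0) (x : LaurentSeries R) (n : ℤ)
    (h : ¬ (k : ℤ) ∣ n) : (vq k x).coeff n = 0 := by
  have : NeZero k := ⟨hk⟩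
  rw [vq_eq_qExpand k]
  exact qExpand_coeff_of_not_dvd k x h

/-- Commutation of `q ↦ a q` with `q ↦ q^k`. -/
theorem qScale_vq (a : Rˣ) (k : ℕ) (hk : k ≠ 0) (x : LaurentSeries R) :
    qScale a (vq k x) = vq k (qScale (a ^ k) x) := by
  ext n
  by_cases hn : (k : ℤ) ∣ n
  · obtain ⟨m, rfl⟩ := hn
    rw [qScale_coeff, vq_coeff_mul k hk, vq_coeff_mul k hk, qScale_coeff, zpow_mul, zpow_natCast]
  · rw [qScale_coeff, vq_coeff_of_not_dvd k hk _ _ hn, vq_coeff_of_not_dvd k hk _ _ hn, mul_zero]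

/-- `x(c q^k)` evaluated at `q ↦ a q^m` is `x(c a^k q^{mk})`. -/
theorem qSub_qSub (a c : Rˣ) (m k : ℕ) (hm : m ≠ 0) (hk : k ≠ 0) (x : LaurentSeries R) :
    qSub a m (qSub c k x) = qSub (c * a ^ k) (m * k) x := by
  rw [qSub_apply, qSub_apply, qSub_apply, qScale_vq a k hk, vq_vq m k hm hk, qScale_qScale,
    mul_comm (a ^ k) c]

theorem qSub_jS (a c : Rˣ) (m k : ℕ) (hm : m ≠ 0) (hk : k ≠ 0) :
    qSub a m (jS R c k) = jS R (c * a ^ k) (m * k) :=
  qSub_qSub a c m k hm hk _

theorem qSub_injective (c : Rˣ) (k : ℕ) (hk : k ≠ 0) :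
    Function.Injective (qSub c k : LaurentSeries R → LaurentSeries R) := by
  intro x y h
  rw [qSub_apply, qSub_apply] at h
  exact qScale_injective c (vq_injective k hk h)

theorem jS_one_one : jS R 1 1 = jqModC R := by
  rw [jS, qSub_apply, vq_one, qScale_one]

theorem jS_one_eq_jqNModC (N : ℕ) [NeZero N] : jS R 1 N = jqNModC R N := by
  rw [jS, qSub_apply, qScale_one, vq_eq_qExpand N, jqNModC]

/-- leading coefficient: `j(c q^k) = c⁻¹ q^{-k} + …`. -/
theorem jS_coeff_neg (c : Rˣ) (k : ℕ) (hk : k ≠ 0) :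
    (jS R c k).coeff (-(k : ℤ)) = ((c⁻¹ : Rˣ) : R) := by
  rw [jS, qSub_apply, show (-(k : ℤ)) = (k : ℤ) * (-1) by ring, vq_coeff_mul k hk, qScale_coeff,
    coeff_jqModC_neg_one, mul_one, zpow_neg_one]

theorem coeff_jqModC_of_lt' {n : ℤ} (hn : n < -1) : (jqModC R).coeff n = 0 := by
  have h := coeff_jqModC_pow_of_lt R (b := 1) (m := n) (by simpa using hn)
  simpa using h

theorem jS_coeff_of_lt (c : Rˣ) (k : ℕ) (hk : k ≠ 0) (n : ℤ) (hn : n < -(k : ℤ)) :
    (jS R c k).coeff n = 0 := by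
  rw [jS, qSub_apply]
  by_cases hd : (k : ℤ) ∣ n
  · obtain ⟨m, rfl⟩ := hd
    have hkpos : (0 : ℤ) < k := by exact_mod_cast Nat.pos_of_ne_zero hk
    have hm : m < -1 := by
      by_contra hcon
      have : -1 ≤ m := not_lt.mp hcon
      nlinarith
    rw [vq_coeff_mul k hk, qScale_coeff, coeff_jqModC_of_lt' hm, mul_zero]
  · exact vq_coeff_of_not_dvd k hk _ _ hd

theorem jS_coeff_of_not_dvd (c : Rˣ) (k : ℕ) (hk : k ≠ 0) (n : ℤ) (h : ¬ (k : ℤ) ∣ n) :
    (jS R c k).coeff n = 0 := by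
  rw [jS, qSub_apply]
  exact vq_coeff_of_not_dvd k hk _ _ h

/-- `q ↦ ζ q` fixes every series in `q^p` when `ζ^p = 1`. -/
theorem qScale_vq_of_pow_eq_one (ζ : Rˣ) (p : ℕ) (hp : p ≠ 0) (hζ : ζ ^ p = 1)
    (x : LaurentSeries R) : qScale ζ (vq p x) = vq p x := by
  rw [qScale_vq ζ p hp, hζ, qScale_one]

/-- base change of coefficients commutes with `q ↦ c q`. -/
theorem coeffMap_qScale {S : Type*} [CommRing S] (f : R →+* S) (c : Rˣ) (x : LaurentSeries R) :
    coeffMap f (qScale c x) = qScale (Units.map f.toMonoidHom c) (coeffMap f x) := by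
  ext n
  rw [coeffMap_coeff, qScale_coeff, qScale_coeff, coeffMap_coeff, map_mul, ← map_zpow,
    Units.coe_map]
  rfl

/-- base change of coefficients commutes with `q ↦ q^k` (also for `k = 0`). -/
theorem coeffMap_vq {S : Type*} [CommRing S] (f : R →+* S) (k : ℕ) (x : LaurentSeries R) :
    coeffMap f (vq k x) = vq k (coeffMap f x) := by
  rcases Nat.eq_zero_or_pos k with rfl | hk
  · simp [vq]
  · have : NeZero k := ⟨hk.ne'⟩
    rw [vq_eq_qExpand k, vq_eq_qExpand k, coeffMap_qExpand]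

theorem coeffMap_qSub {S : Type*} [CommRing S] (f : R →+* S) (c : Rˣ) (k : ℕ)
    (x : LaurentSeries R) :
    coeffMap f (qSub c k x) = qSub (Units.map f.toMonoidHom c) k (coeffMap f x) := by
  rw [qSub_apply, qSub_apply, coeffMap_vq, coeffMap_qScale]

theorem coeffMap_jqModC {S : Type*} [CommRing S] (f : R →+* S) :
    coeffMap f (jqModC R) = jqModC S :=
  map_jqModC f

/-- base change of coefficients -/
theorem coeffMap_jS {S : Type*} [CommRing S] (f : R →+* S) (c : Rˣ) (k : ℕ) :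
    coeffMap f (jS R c k) = jS S (Units.map f.toMonoidHom c) k := by
  rw [jS, jS, coeffMap_qSub, coeffMap_jqModC]

end F0

section ModPoly

/-- `evalY` followed by evaluation, as a single `eval₂`. -/
theorem evalY_eval {A : Type*} [CommRing A] (y x : A) (Φ : Polynomial (Polynomial ℤ)) :
    (evalY y Φ).eval x = Φ.eval₂ (Polynomial.eval₂RingHom (Int.castRingHom A) y) x := by
  rw [evalY, Polynomial.coe_mapRingHom, Polynomial.eval_map]

theorem comp_eval₂RingHom_intCast {A B : Type*} [CommRing A] [CommRing B] (g : A →+* B) (y : A) :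
    g.comp (Polynomial.eval₂RingHom (Int.castRingHom A) y) =
      Polynomial.eval₂RingHom (Int.castRingHom B) (g y) := by
  apply Polynomial.ringHom_ext
  · intro a
    simp
  · simp

/-- Ring homomorphisms commute with `Φ(x, y)`. -/
theorem map_evalY_eval {A B : Type*} [CommRing A] [CommRing B] (g : A →+* B) (y x : A)
    (Φ : Polynomial (Polynomial ℤ)) :
    g ((evalY y Φ).eval x) = (evalY (g y) Φ).eval (g x) := by
  rw [evalY_eval, evalY_eval, Polynomial.hom_eval₂, comp_eval₂RingHom_intCast]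

/-- `Polynomial.map g` commutes with `evalY`. -/
theorem map_evalY {A B : Type*} [CommRing A] [CommRing B] (g : A →+* B) (y : A)
    (Φ : Polynomial (Polynomial ℤ)) : (evalY y Φ).map g = evalY (g y) Φ := by
  rw [evalY, evalY, Polynomial.coe_mapRingHom, Polynomial.coe_mapRingHom, Polynomial.map_map,
    comp_eval₂RingHom_intCast]

theorem coeffMap_injective {R S : Type*} [CommRing R] [CommRing S] (f : R →+* S)
    (hf : Function.Injective f) : Function.Injective (coeffMap f) := by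
  intro x y h
  ext n
  apply hf
  have := congrArg (fun z => HahnSeries.coeff z n) h
  simpa using this

/-- The two basic relations over a domain containing a primitive `p`-th root of unity. -/
theorem IsModPoly.eval_base {p : ℕ} {Φ : Polynomial (Polynomial ℤ)} (hΦ : IsModPoly p Φ)
    (hp : p.Prime) (A : Type) [CommRing A] [IsDomain A] (ζ : Aˣ) (hζ : IsPrimitiveRoot ζ p) :
    (evalY (jS A 1 p) Φ).eval (jS A 1 1) = 0 ∧ (evalY (jS A 1 1) Φ).eval (jS A 1 p) = 0 := by
  have hfact := hΦ.fact A ζ hζ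
  unfold ModPolyFact at hfact
  have h1 : (evalY (jS A 1 p) Φ).eval (jS A 1 1) = 0 := by
    rw [hfact, Polynomial.eval_mul, Polynomial.eval_prod,
      Finset.prod_eq_zero (Finset.mem_range.mpr hp.pos) (by simp), mul_zero]
  have h2 : (evalY (jS A 1 p) Φ).eval (jS A 1 (p * p)) = 0 := by
    rw [hfact, Polynomial.eval_mul]
    simp
  refine ⟨h1, ?_⟩
  apply qSub_injective (1 : Aˣ) p hp.ne_zero
  rw [map_zero, map_evalY_eval, qSub_jS 1 1 p 1 hp.ne_zero one_ne_zero,
    qSub_jS 1 1 p p hp.ne_zero hp.ne_zero]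
  simpa using h2

/-- The two basic relations over `ℤ`. -/
theorem IsModPoly.eval_int {p : ℕ} {Φ : Polynomial (Polynomial ℤ)} (hΦ : IsModPoly p Φ)
    (hp : p.Prime) :
    (evalY (jS ℤ 1 p) Φ).eval (jS ℤ 1 1) = 0 ∧ (evalY (jS ℤ 1 1) Φ).eval (jS ℤ 1 p) = 0 := by
  have hζ0 : IsPrimitiveRoot (Complex.exp (2 * Real.pi * Complex.I / p)) p :=
    Complex.isPrimitiveRoot_exp p hp.ne_zero
  obtain ⟨ζ, hζ⟩ : ∃ ζ : ℂˣ, (ζ : ℂ) = Complex.exp (2 * Real.pi * Complex.I / p) :=
    ⟨(hζ0.isUnit hp.ne_zero).unit, rfl⟩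
  have hζ' : IsPrimitiveRoot ζ p := by
    rw [← IsPrimitiveRoot.coe_units_iff, hζ]
    exact hζ0
  obtain ⟨h1, h2⟩ := hΦ.eval_base hp ℂ ζ hζ'
  have hinj := coeffMap_injective (Int.castRingHom ℂ) Int.cast_injective
  have hj : ∀ k : ℕ, coeffMap (Int.castRingHom ℂ) (jS ℤ 1 k) = jS ℂ 1 k := by
    intro k
    rw [coeffMap_jS]
    simp
  constructor
  · apply hinj
    rw [map_zero, map_evalY_eval, hj, hj]
    exact h1
  · apply hinj
    rw [map_zero, map_evalY_eval, hj, hj]
    exact h2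

variable {R : Type*} [CommRing R]

/-- consequences of the factorisation, over ANY commutative ring:
`Φ(j(c q^k), j(c^p q^{kp})) = 0` and `Φ(j(c^p q^{kp}), j(c q^k)) = 0`. -/
theorem IsModPoly.eval_jS {p : ℕ} {Φ : Polynomial (Polynomial ℤ)} (hΦ : IsModPoly p Φ)
    (hp : p.Prime) (c : Rˣ) (k : ℕ) (hk : k ≠ 0) :
    (evalY (jS R (c ^ p) (k * p)) Φ).eval (jS R c k) = 0 ∧
    (evalY (jS R c k) Φ).eval (jS R (c ^ p) (k * p)) = 0 := by
  obtain ⟨h1, h2⟩ := hΦ.eval_int hp
  have hj : ∀ n : ℕ, coeffMap (Int.castRingHom R) (jS ℤ 1 n) = jS R 1 n := by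
    intro n
    rw [coeffMap_jS]
    simp
  have e1 : qSub c k (jS R 1 1) = jS R c k := by
    rw [qSub_jS c 1 k 1 hk one_ne_zero]
    simp
  have ep : qSub c k (jS R 1 p) = jS R (c ^ p) (k * p) := by
    rw [qSub_jS c 1 k p hk hp.ne_zero]
    simp
  constructor
  · have := congrArg (fun z => qSub c k (coeffMap (Int.castRingHom R) z)) h1
    simp only [map_zero] at this
    rwa [map_evalY_eval, map_evalY_eval, hj, hj, e1, ep] at this
  · have := congrArg (fun z => qSub c k (coeffMap (Int.castRingHom R) z)) h2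
    simp only [map_zero] at this
    rwa [map_evalY_eval, map_evalY_eval, hj, hj, e1, ep] at this

/-- the factorisation after the substitution `q ↦ c q^m`. -/
theorem IsModPoly.fact_qSub {p : ℕ} {Φ : Polynomial (Polynomial ℤ)} (hΦ : IsModPoly p Φ)
    (hp : p.Prime) (A : Type) [CommRing A] [IsDomain A] (ζ : Aˣ) (hζ : IsPrimitiveRoot ζ p)
    (c : Aˣ) (m : ℕ) (hm : m ≠ 0) :
    evalY (jS A (c ^ p) (m * p)) Φ =
      (X - C (jS A (c ^ (p * p)) (m * (p * p)))) *
        ∏ b ∈ Finset.range p, (X - C (jS A (ζ ^ b * c) m)) := by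
  have hfact := hΦ.fact A ζ hζ
  unfold ModPolyFact at hfact
  have h := congrArg (Polynomial.map (qSub c m)) hfact
  rw [map_evalY, qSub_jS c 1 m p hm hp.ne_zero, Polynomial.map_mul, Polynomial.map_prod,
    Polynomial.map_sub, Polynomial.map_X, Polynomial.map_C,
    qSub_jS c 1 m (p * p) hm (Nat.mul_ne_zero hp.ne_zero hp.ne_zero)] at h
  simp only [one_mul] at h
  rw [h]
  congr 1
  refine Finset.prod_congr rfl fun b _ => ?_
  rw [Polynomial.map_sub, Polynomial.map_X, Polynomial.map_C, qSub_jS c (ζ ^ b) m 1 hm one_ne_zero]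
  simp

end ModPoly

end Fermat.Agent.S28
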