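import Mathlib
import Fermat.Agent.S28.Defs
import Fermat.Agent.S28.Formal

/-!
S28: integrality chains.  For `d ∣ N` the series `j(q^d)` and `j(q^N)` are integral over each
other's `ℤ`-algebra, in `LaurentSeries R` for every commutative ring `R`
(consequence of the modular equations `HasModPolys`).

Exports (instance-free "two-variable monic relation" form):
* `exists_monic_evalY_jS_of_dvd  : ∃ P monic, P(j(q^d), j(q^N)) = 0`   (`d ∣ N`)
* `exists_monic_evalY_jS_of_dvd' : ∃ P monic, P(j(q^N), j(q^d)) = 0`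
and the converters `isIntegral_adjoin_of_evalY` (relation ⇒ `IsIntegral (Algebra.adjoin A {y}) x`
for any base ring `A`), `evalY_eval_map` (relations are preserved by ring homs).
-/

set_option autoImplicit false

noncomputable section

namespace Fermat.Agent.S28

open ModularCurve Polynomial

section General

variable {S : Type*} [CommRing S]

/-- Relations `Φ(x, y) = 0` are transported by ring homomorphisms. -/
theorem evalY_eval_map {T : Type*} [CommRing T] (f : S →+* T) (Φ : Polynomial (Polynomial ℤ))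
    (x y : S) : (evalY (f y) Φ).eval (f x) = f ((evalY y Φ).eval x) := by
  have hcomp : (Polynomial.eval₂RingHom (Int.castRingHom T) (f y)) =
      f.comp (Polynomial.eval₂RingHom (Int.castRingHom S) y) := by
    apply Polynomial.ringHom_ext
    · intro a
      simp
    · simp
  simp only [evalY, Polynomial.coe_mapRingHom, hcomp]
  rw [← Polynomial.map_map, Polynomial.eval_map, Polynomial.eval₂_at_apply, Polynomial.eval_map]

/-- A two-variable monic relation `Φ(x, y) = 0` makes `x` integral over `A[y]`, for any base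
ring `A`. -/
theorem isIntegral_adjoin_of_evalY {A : Type*} [CommRing A] [Algebra A S]
    {Φ : Polynomial (Polynomial ℤ)} (hm : Φ.Monic) {x y : S}
    (h : (evalY y Φ).eval x = 0) : IsIntegral (Algebra.adjoin A {y}) x := by
  let y' : Algebra.adjoin A {y} := ⟨y, Algebra.subset_adjoin (Set.mem_singleton y)⟩
  let φ : Polynomial ℤ →+* Algebra.adjoin A {y} :=
    Polynomial.eval₂RingHom (Int.castRingHom _) y'
  refine ⟨Φ.map φ, hm.map φ, ?_⟩
  have hcomp : (algebraMap (Algebra.adjoin A {y}) S).comp φ =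
      Polynomial.eval₂RingHom (Int.castRingHom S) y := by
    apply Polynomial.ringHom_ext
    · intro a
      simp [φ]
    · simp [φ, y']
  rw [Polynomial.eval₂_map, hcomp]
  simpa [evalY, Polynomial.eval_map] using h

/-- Conversely, integrality over `ℤ[y]` gives a two-variable monic relation. -/
theorem exists_monic_evalY_of_isIntegral {x y : S} (h : IsIntegral (Algebra.adjoin ℤ {y}) x) :
    ∃ P : Polynomial (Polynomial ℤ), P.Monic ∧ (evalY y P).eval x = 0 := by
  obtain ⟨p, hp, hpx⟩ := h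
  let y' : Algebra.adjoin ℤ {y} := ⟨y, Algebra.subset_adjoin (Set.mem_singleton y)⟩
  let φ : Polynomial ℤ →+* Algebra.adjoin ℤ {y} :=
    Polynomial.eval₂RingHom (Int.castRingHom _) y'
  have hcomp : (algebraMap (Algebra.adjoin ℤ {y}) S).comp φ =
      Polynomial.eval₂RingHom (Int.castRingHom S) y := by
    apply Polynomial.ringHom_ext
    · intro a
      simp [φ]
    · simp [φ, y']
  have hsurj : Function.Surjective φ := by
    rintro ⟨z, hz⟩
    rw [Algebra.adjoin_singleton_eq_range_aeval] at hz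
    obtain ⟨g, rfl⟩ := hz
    refine ⟨g, Subtype.ext ?_⟩
    show (algebraMap (Algebra.adjoin ℤ {y}) S) (φ g) = _
    rw [← RingHom.comp_apply, hcomp]
    simp [Polynomial.aeval_def]
  have hlifts : p ∈ Polynomial.lifts φ :=
    (Polynomial.lifts_iff_coeff_lifts p).mpr fun i => hsurj (p.coeff i)
  obtain ⟨P, hPp, -, hPmonic⟩ := Polynomial.lifts_and_natDegree_eq_and_monic hlifts hp
  refine ⟨P, hPmonic, ?_⟩
  have : (evalY y P).eval x = Polynomial.eval₂ (algebraMap (Algebra.adjoin ℤ {y}) S) x (P.map φ) := by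
    rw [Polynomial.eval₂_map, hcomp]
    simp [evalY, Polynomial.eval_map]
  rw [this, hPp, hpx]

/-- Transitivity of "integral over `ℤ[·]`". -/
theorem isIntegral_adjoin_trans {x v u : S} (h1 : IsIntegral (Algebra.adjoin ℤ {v}) x)
    (h2 : IsIntegral (Algebra.adjoin ℤ {u}) v) : IsIntegral (Algebra.adjoin ℤ {u}) x := by
  let A₁ := Algebra.adjoin ℤ {u}
  let C : Subalgebra A₁ S := integralClosure A₁ S
  have hle : Algebra.adjoin ℤ {v} ≤ C.restrictScalars ℤ :=
    Algebra.adjoin_le (by
      intro z hz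
      rw [Set.mem_singleton_iff] at hz
      subst hz
      exact h2)
  have hxC : IsIntegral C x := by
    have := h1.map_of_comp_eq (Subalgebra.inclusion hle).toRingHom (RingHom.id S)
      (by ext; rfl)
    exact this
  exact isIntegral_trans (R := A₁) (A := C) x hxC

theorem isIntegral_adjoin_self (x : S) : IsIntegral (Algebra.adjoin ℤ {x}) x :=
  isIntegral_algebraMap (x := (⟨x, Algebra.subset_adjoin (Set.mem_singleton x)⟩ : Algebra.adjoin ℤ {x}))

/-- Abstract chain: if consecutive members `J d`, `J (d * p)` (p prime) of a family are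
integral over each other's ring, so are `J d` and `J (d * m)` for all `m ≠ 0`. -/
theorem isIntegral_chain (J : ℕ → S)
    (hrel : ∀ p : ℕ, p.Prime → ∀ d : ℕ, d ≠ 0 →
      IsIntegral (Algebra.adjoin ℤ {J (d * p)}) (J d) ∧
      IsIntegral (Algebra.adjoin ℤ {J d}) (J (d * p))) (m : ℕ) :
    m ≠ 0 → ∀ d : ℕ, d ≠ 0 →
      IsIntegral (Algebra.adjoin ℤ {J (d * m)}) (J d) ∧
      IsIntegral (Algebra.adjoin ℤ {J d}) (J (d * m)) := by
  induction m using Nat.recOnMul with
  | zero => exact fun h => absurd rfl h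
  | one =>
    intro _ d _
    rw [mul_one]
    exact ⟨isIntegral_adjoin_self _, isIntegral_adjoin_self _⟩
  | prime p hp => exact fun _ d hd => hrel p hp d hd
  | mul a b iha ihb =>
    intro hm d hd
    have ha : a ≠ 0 := fun h => hm (by rw [h, zero_mul])
    have hb : b ≠ 0 := fun h => hm (by rw [h, mul_zero])
    have h1 := iha ha d hd
    have h2 := ihb hb (d * a) (Nat.mul_ne_zero hd ha)
    rw [mul_assoc] at h2
    exact ⟨isIntegral_adjoin_trans h1.1 h2.1, isIntegral_adjoin_trans h2.2 h1.2⟩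

end General

section Chains

variable (R : Type*) [CommRing R]

theorem exists_monic_evalY_jS_mul (hmod : HasModPolys) (m : ℕ) (hm : m ≠ 0) (d : ℕ) (hd : d ≠ 0) :
    (∃ P : Polynomial (Polynomial ℤ), P.Monic ∧ (evalY (jS R 1 (d * m)) P).eval (jS R 1 d) = 0) ∧
    (∃ P : Polynomial (Polynomial ℤ), P.Monic ∧ (evalY (jS R 1 d) P).eval (jS R 1 (d * m)) = 0) := by
  have h := isIntegral_chain (S := LaurentSeries R) (fun k => jS R 1 k) (fun p hp d hd => by
    obtain ⟨Φ, hΦ⟩ := hmod p hp
    have h := hΦ.eval_jS (R := R) hp 1 d hd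
    rw [one_pow] at h
    exact ⟨@isIntegral_adjoin_of_evalY (LaurentSeries R) _ ℤ _ (Ring.toIntAlgebra _) Φ hΦ.monic _ _ h.1,
      @isIntegral_adjoin_of_evalY (LaurentSeries R) _ ℤ _ (Ring.toIntAlgebra _) Φ hΦ.monic _ _ h.2⟩)
    m hm d hd
  exact ⟨exists_monic_evalY_of_isIntegral h.1, exists_monic_evalY_of_isIntegral h.2⟩

/-- For `d ∣ N`, `N ≠ 0`: a monic relation `P(j(q^d), j(q^N)) = 0`,
i.e. `j(q^d)` is integral over `ℤ[j(q^N)]`. -/
theorem exists_monic_evalY_jS_of_dvd (hmod : HasModPolys) {d N : ℕ} (hd : d ∣ N) (hN : N ≠ 0) :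
    ∃ P : Polynomial (Polynomial ℤ), P.Monic ∧ (evalY (jS R 1 N) P).eval (jS R 1 d) = 0 := by
  obtain ⟨m, rfl⟩ := hd
  have hd0 : d ≠ 0 := fun h => hN (by rw [h, zero_mul])
  have hm0 : m ≠ 0 := fun h => hN (by rw [h, mul_zero])
  exact (exists_monic_evalY_jS_mul R hmod m hm0 d hd0).1

/-- For `d ∣ N`, `N ≠ 0`: a monic relation `P(j(q^N), j(q^d)) = 0`,
i.e. `j(q^N)` is integral over `ℤ[j(q^d)]`. -/
theorem exists_monic_evalY_jS_of_dvd' (hmod : HasModPolys) {d N : ℕ} (hd : d ∣ N) (hN : N ≠ 0) :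
    ∃ P : Polynomial (Polynomial ℤ), P.Monic ∧ (evalY (jS R 1 d) P).eval (jS R 1 N) = 0 := by
  obtain ⟨m, rfl⟩ := hd
  have hd0 : d ≠ 0 := fun h => hN (by rw [h, zero_mul])
  have hm0 : m ≠ 0 := fun h => hN (by rw [h, mul_zero])
  exact (exists_monic_evalY_jS_mul R hmod m hm0 d hd0).2

end Chains

end Fermat.Agent.S28
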